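/-
Case I of Fermat's Last Theorem for the exponents 5, 7, 11, 13 via the
(generalised) Sophie Germain theorem.  Pure integer arithmetic.
-/
import Mathlib.Algebra.Ring.GeomSum
import Mathlib.Data.ZMod.Basic
import Mathlib.FieldTheory.Finite.Basic
import Mathlib.RingTheory.Int.Basic
import Mathlib.RingTheory.PrincipalIdealDomain
import Mathlib.Tactic

set_option autoImplicit false

namespace Fermat.Agent.S11.H69

open Finset

/-- The cofactor `(y ^ p + z ^ p) / (y + z)` for odd `p`. -/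
def sgPhi (p : ℕ) (y z : ℤ) : ℤ := ∑ i ∈ range p, y ^ i * (-z) ^ (p - 1 - i)

lemma sgPhi_mul {p : ℕ} (hp : Odd p) (y z : ℤ) : (y + z) * sgPhi p y z = y ^ p + z ^ p := by
  have h := geom_sum₂_mul y (-z) p
  rw [hp.neg_pow] at h
  rw [sgPhi, mul_comm]
  linear_combination h

lemma add_dvd_sgPhi_sub (p : ℕ) (y z : ℤ) : y + z ∣ sgPhi p y z - p * y ^ (p - 1) := by
  have hsum : sgPhi p y z - p * y ^ (p - 1) =
      ∑ i ∈ range p, (y ^ i * (-z) ^ (p - 1 - i) - y ^ (p - 1)) := by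
    rw [sum_sub_distrib, sum_const, card_range, sgPhi]
    simp
  rw [hsum]
  refine dvd_sum fun i hi => ?_
  have hi' : i < p := mem_range.mp hi
  have hpow : y ^ (p - 1) = y ^ i * y ^ (p - 1 - i) := by
    rw [← pow_add]; congr 1; omega
  rw [hpow, ← mul_sub]
  refine Dvd.dvd.mul_left ?_ _
  have h := sub_dvd_pow_sub_pow (-z) y (p - 1 - i)
  have h2 : y + z ∣ -z - y := ⟨-1, by ring⟩
  exact h2.trans h

lemma isCoprime_add_sgPhi {p : ℕ} (hp : p.Prime) {u v : ℤ} (huv : IsCoprime u v)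
    (hpuv : ¬ (p : ℤ) ∣ u + v) : IsCoprime (u + v) (sgPhi p u v) := by
  obtain ⟨k, hk⟩ := add_dvd_sgPhi_sub p u v
  have h1 : IsCoprime (u + v) u := by
    have := huv.symm.add_mul_left_left 1
    simpa [add_comm] using this
  have h2 : IsCoprime (u + v) (p : ℤ) :=
    ((Nat.prime_iff_prime_int.mp hp).coprime_iff_not_dvd.mpr hpuv).symm
  have h3 : IsCoprime (u + v) ((p : ℤ) * u ^ (p - 1)) := h2.mul_right h1.pow_right
  have h4 := h3.add_mul_left_right k
  have : sgPhi p u v = (p : ℤ) * u ^ (p - 1) + (u + v) * k := by linear_combination hk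
  rwa [this]

lemma sg_factor {p : ℕ} (hp : p.Prime) (hodd : Odd p) {u v w : ℤ}
    (h : u ^ p + v ^ p + w ^ p = 0) (huv : IsCoprime u v) (hpw : ¬ (p : ℤ) ∣ w) :
    (∃ s : ℤ, u + v = s ^ p) ∧ ∃ t : ℤ, sgPhi p u v = t ^ p := by
  have hmul : (u + v) * sgPhi p u v = (-w) ^ p := by
    rw [sgPhi_mul hodd, hodd.neg_pow]; linear_combination h
  have hpuv : ¬ (p : ℤ) ∣ u + v := by
    intro hd
    have : (p : ℤ) ∣ (-w) ^ p := hmul ▸ Dvd.dvd.mul_right hd _
    have := (Nat.prime_iff_prime_int.mp hp).dvd_of_dvd_pow this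
    exact hpw ((dvd_neg).mp this)
  exact Int.eq_pow_of_mul_eq_pow_odd (isCoprime_add_sgPhi hp huv hpuv) hodd hmul

lemma not_dvd_of_isCoprime {q : ℕ} (hq : q.Prime) {u v : ℤ} (huv : IsCoprime u v)
    (hu : (q : ℤ) ∣ u) (hv : (q : ℤ) ∣ v) : False := by
  have := huv.isUnit_of_dvd' hu hv
  exact (Nat.prime_iff_prime_int.mp hq).not_isUnit this

/-- Core of Sophie Germain's argument: the auxiliary prime `q` cannot divide `x`. -/
lemma sg_core {p q : ℕ} (hp : p.Prime) (hp2 : p ≠ 2) (hq : q.Prime)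
    (h1 : ∀ x y z : ZMod q, x ^ p + y ^ p + z ^ p = 0 → x * y * z = 0)
    (h2 : ∀ x : ZMod q, x ^ p ≠ (p : ZMod q))
    {x y z : ℤ} (h : x ^ p + y ^ p + z ^ p = 0)
    (hxy : IsCoprime x y) (hyz : IsCoprime y z) (hzx : IsCoprime z x)
    (hpx : ¬ (p : ℤ) ∣ x) (hpy : ¬ (p : ℤ) ∣ y) (hpz : ¬ (p : ℤ) ∣ z)
    (hqx : (q : ℤ) ∣ x) : False := by
  have : Fact q.Prime := ⟨hq⟩
  have hodd : Odd p := hp.odd_of_ne_two hp2
  obtain ⟨⟨a, ha⟩, ⟨α, hα⟩⟩ := sg_factor hp hodd (u := y) (v := z) (w := x)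
    (by linear_combination h) hyz hpx
  obtain ⟨⟨b, hb⟩, -⟩ := sg_factor hp hodd (u := z) (v := x) (w := y)
    (by linear_combination h) hzx hpy
  obtain ⟨⟨c, hc⟩, ⟨γ, hγ⟩⟩ := sg_factor hp hodd (u := x) (v := y) (w := z)
    (by linear_combination h) hxy hpz
  have hx0 : (x : ZMod q) = 0 := (ZMod.intCast_zmod_eq_zero_iff_dvd x q).mpr hqx
  have hy0 : (y : ZMod q) ≠ 0 := fun hy0 =>
    not_dvd_of_isCoprime hq hxy hqx ((ZMod.intCast_zmod_eq_zero_iff_dvd y q).mp hy0)
  have hz0 : (z : ZMod q) ≠ 0 := fun hz0 =>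
    not_dvd_of_isCoprime hq hzx ((ZMod.intCast_zmod_eq_zero_iff_dvd z q).mp hz0) hqx
  -- the three `p`-th powers sum to `2x ≡ 0`
  have hsum : (b : ZMod q) ^ p + (c : ZMod q) ^ p + ((-a : ℤ) : ZMod q) ^ p = 0 := by
    have e : b ^ p + c ^ p + (-a) ^ p = 2 * x := by
      rw [hodd.neg_pow, ← ha, ← hb, ← hc]; ring
    have := congrArg (Int.cast : ℤ → ZMod q) e
    push_cast at this
    push_cast
    rw [this, hx0, mul_zero]
  have hprod := h1 _ _ _ hsum
  have hb0 : (b : ZMod q) ≠ 0 := by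
    intro hb0
    have e := congrArg (Int.cast : ℤ → ZMod q) hb
    push_cast at e
    rw [hb0, hx0, add_zero, zero_pow hp.ne_zero] at e
    exact hz0 e
  have hc0 : (c : ZMod q) ≠ 0 := by
    intro hc0
    have e := congrArg (Int.cast : ℤ → ZMod q) hc
    push_cast at e
    rw [hc0, hx0, zero_add, zero_pow hp.ne_zero] at e
    exact hy0 e
  have ha0 : (a : ZMod q) = 0 := by
    rcases mul_eq_zero.mp hprod with h' | h'
    · rcases mul_eq_zero.mp h' with h'' | h''
      · exact absurd h'' hb0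
      · exact absurd h'' hc0
    · simpa using h'
  -- hence `y + z ≡ 0`
  have hyz0 : (q : ℤ) ∣ y + z := by
    rw [ha]
    exact Dvd.dvd.pow ((ZMod.intCast_zmod_eq_zero_iff_dvd a q).mp ha0) hp.ne_zero
  -- `α ^ p ≡ p * y ^ (p - 1)`
  have hα' : (α : ZMod q) ^ p = (p : ZMod q) * (y : ZMod q) ^ (p - 1) := by
    have hd : (q : ℤ) ∣ sgPhi p y z - p * y ^ (p - 1) := hyz0.trans (add_dvd_sgPhi_sub p y z)
    have e := (ZMod.intCast_zmod_eq_zero_iff_dvd _ q).mpr hd
    rw [hα] at e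
    push_cast at e
    exact sub_eq_zero.mp e
  -- `γ ^ p ≡ y ^ (p - 1)`
  have hγ' : (γ : ZMod q) ^ p = (y : ZMod q) ^ (p - 1) := by
    have e := congrArg (Int.cast : ℤ → ZMod q) (sgPhi_mul hodd x y)
    rw [hγ] at e
    push_cast at e
    rw [hx0, zero_add, zero_pow hp.ne_zero, zero_add] at e
    have hyp : (y : ZMod q) ^ p = (y : ZMod q) * (y : ZMod q) ^ (p - 1) := by
      rw [← pow_succ']; congr 1; have := hp.pos; omega
    rw [hyp] at e
    exact mul_left_cancel₀ hy0 e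
  have hγ0 : (γ : ZMod q) ≠ 0 := by
    intro h0
    rw [h0, zero_pow hp.ne_zero] at hγ'
    exact hy0 (pow_eq_zero_iff (n := p - 1) (by have := hp.two_le; omega) |>.mp hγ'.symm)
  refine h2 ((α : ZMod q) * (γ : ZMod q)⁻¹) ?_
  rw [mul_pow, inv_pow, hα', hγ']
  rw [← hγ']
  field_simp

/-- **Generalised Sophie Germain theorem.** -/
theorem sophie_germain {p q : ℕ} (hp : p.Prime) (hp2 : p ≠ 2) (hq : q.Prime)
    (h1 : ∀ x y z : ZMod q, x ^ p + y ^ p + z ^ p = 0 → x * y * z = 0)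
    (h2 : ∀ x : ZMod q, x ^ p ≠ (p : ZMod q))
    {a b c : ℤ} (hab : IsCoprime a b) (h : a ^ p + b ^ p = c ^ p) : (p : ℤ) ∣ a * b * c := by
  have : Fact q.Prime := ⟨hq⟩
  have hodd : Odd p := hp.odd_of_ne_two hp2
  by_contra hnd
  have hpa : ¬ (p : ℤ) ∣ a := fun hd => hnd (Dvd.dvd.mul_right (Dvd.dvd.mul_right hd _) _)
  have hpb : ¬ (p : ℤ) ∣ b := fun hd => hnd (Dvd.dvd.mul_right (Dvd.dvd.mul_left hd _) _)
  have hpc : ¬ (p : ℤ) ∣ -c := fun hd => hnd (Dvd.dvd.mul_left ((dvd_neg).mp hd) _)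
  have h0 : a ^ p + b ^ p + (-c) ^ p = 0 := by rw [hodd.neg_pow]; linear_combination h
  -- pairwise coprimality
  have hbc : IsCoprime b (-c) := by
    have h3 : IsCoprime b (c ^ p) := by
      rw [← h]
      have := (hab.symm.pow_right (n := p)).add_mul_left_right (b ^ (p - 1))
      have e : b * b ^ (p - 1) = b ^ p := by
        rw [← pow_succ']; congr 1; have := hp.pos; omega
      rwa [e] at this
    exact ((IsCoprime.pow_right_iff hp.pos).mp h3).neg_right
  have hca : IsCoprime (-c) a := by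
    have h3 : IsCoprime a (c ^ p) := by
      rw [← h, add_comm]
      have := (hab.pow_right (n := p)).add_mul_left_right (a ^ (p - 1))
      have e : a * a ^ (p - 1) = a ^ p := by
        rw [← pow_succ']; congr 1; have := hp.pos; omega
      rwa [e] at this
    exact ((IsCoprime.pow_right_iff hp.pos).mp h3).neg_right.symm
  have hcast : (a : ZMod q) ^ p + (b : ZMod q) ^ p + ((-c : ℤ) : ZMod q) ^ p = 0 := by
    have := congrArg (Int.cast : ℤ → ZMod q) h0
    push_cast at this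
    push_cast
    exact this
  have hprod := h1 _ _ _ hcast
  rcases mul_eq_zero.mp hprod with h' | h'
  · rcases mul_eq_zero.mp h' with h'' | h''
    · exact sg_core hp hp2 hq h1 h2 h0 hab hbc hca hpa hpb hpc
        ((ZMod.intCast_zmod_eq_zero_iff_dvd a q).mp h'')
    · exact sg_core hp hp2 hq h1 h2 (x := b) (y := -c) (z := a) (by linear_combination h0)
        hbc hca hab hpb hpc hpa ((ZMod.intCast_zmod_eq_zero_iff_dvd b q).mp h'')
  · exact sg_core hp hp2 hq h1 h2 (x := -c) (y := a) (z := b) (by linear_combination h0)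
      hca hab hbc hpc hpa hpb ((ZMod.intCast_zmod_eq_zero_iff_dvd (-c) q).mp h')

/-- Criterion for the first Sophie Germain condition: all nonzero `p`-th powers modulo `q`
lie in a set `S` no three elements of which sum to zero. -/
lemma sg_cond_of_finset {p q : ℕ} (S : Finset (ZMod q))
    (hS : ∀ x : ZMod q, x = 0 ∨ x ^ p ∈ S)
    (hsum : ∀ u ∈ S, ∀ v ∈ S, ∀ w ∈ S, u + v + w ≠ 0) :
    ∀ x y z : ZMod q, x ^ p + y ^ p + z ^ p = 0 → x * y * z = 0 := by
  intro x y z h
  rcases hS x with rfl | hx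
  · simp
  rcases hS y with rfl | hy
  · simp
  rcases hS z with rfl | hz
  · simp
  exact absurd h (hsum _ hx _ hy _ hz)

/-- Case I of Fermat's Last Theorem for `p = 5` (auxiliary prime `11`). -/
theorem caseI_five {a b c : ℤ} (hab : IsCoprime a b) (h : a ^ 5 + b ^ 5 = c ^ 5) :
    (5 : ℤ) ∣ a * b * c :=
  sophie_germain (p := 5) (q := 11) (by norm_num) (by norm_num) (by norm_num)
    (sg_cond_of_finset ({1, -1} : Finset (ZMod 11)) (by decide) (by decide)) (by decide) hab h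

set_option maxRecDepth 100000 in
/-- Case I of Fermat's Last Theorem for `p = 7` (auxiliary prime `29`). -/
theorem caseI_seven {a b c : ℤ} (hab : IsCoprime a b) (h : a ^ 7 + b ^ 7 = c ^ 7) :
    (7 : ℤ) ∣ a * b * c :=
  sophie_germain (p := 7) (q := 29) (by norm_num) (by norm_num) (by norm_num)
    (sg_cond_of_finset ({1, -1, 12, -12} : Finset (ZMod 29)) (by decide) (by decide))
    (by decide) hab h

/-- Case I of Fermat's Last Theorem for `p = 11` (auxiliary prime `23`). -/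
theorem caseI_eleven {a b c : ℤ} (hab : IsCoprime a b) (h : a ^ 11 + b ^ 11 = c ^ 11) :
    (11 : ℤ) ∣ a * b * c :=
  sophie_germain (p := 11) (q := 23) (by norm_num) (by norm_num) (by norm_num)
    (sg_cond_of_finset ({1, -1} : Finset (ZMod 23)) (by decide) (by decide)) (by decide) hab h

set_option maxRecDepth 100000 in
/-- Case I of Fermat's Last Theorem for `p = 13` (auxiliary prime `53`). -/
theorem caseI_thirteen {a b c : ℤ} (hab : IsCoprime a b) (h : a ^ 13 + b ^ 13 = c ^ 13) :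
    (13 : ℤ) ∣ a * b * c :=
  sophie_germain (p := 13) (q := 53) (by norm_num) (by norm_num) (by norm_num)
    (sg_cond_of_finset ({1, -1, 23, -23} : Finset (ZMod 53)) (by decide) (by decide))
    (by decide) hab h

/-- Case I of Fermat's Last Theorem for the exponents `5, 7, 11, 13`: in a coprime solution
of `a ^ p + b ^ p = c ^ p`, the prime `p` divides `a * b * c`. -/
theorem caseI {p : ℕ} (hp : p = 5 ∨ p = 7 ∨ p = 11 ∨ p = 13) {a b c : ℤ} (hab : IsCoprime a b)
    (h : a ^ p + b ^ p = c ^ p) : (p : ℤ) ∣ a * b * c := by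
  rcases hp with rfl | rfl | rfl | rfl
  · exact caseI_five hab h
  · exact caseI_seven hab h
  · exact caseI_eleven hab h
  · exact caseI_thirteen hab h

end Fermat.Agent.S11.H69
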